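import Mathlib
import Fermat.Agent.LT.T7.H140.SpecDownQSpec

/-!
# Row LT, tower T7, leaf T7.L2Q.3.3 `SDQ140.SphFormQC` (helper729): the core

OFF-MAIN.  Proved lemmas only (no hole, nothing assumed).  ADDITIVE (new names only).

The restriction `e x = ψ (y₀ · locInf x)` of a function `ψ` on `GL₂(𝔸_ℚ)` to the real place is
continuous, of weight `n` in the convention of `T6.wtChar`, invariant under the positive scalars,
and its conjugated circle means `∫ e (x k_θ a_t k_θ⁻¹) dθ` are the twisted circle means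
`∫ τ(k_θ⁻¹) ψ (g k_θ a_t) dθ` of `ψ`; `T6.ArchClassC` then classifies the eigenvalue function
(`archClass_apply729`).
-/

set_option autoImplicit false

open AutomorphicForm IsDedekindDomain NumberField MeasureTheory
open scoped ComplexConjugate

noncomputable section

namespace Fermat.Agent.LT.T7.SphQ729

open Fermat.Agent.LT.H556 Fermat.Agent.LT.H556.A0 Fermat.Agent.LT.H670 Fermat.Agent.LT.T7
open Fermat.Agent.LT.T7.L2Q

/-! ## 1. Topology -/

theorem continuous_realToInf729 : Continuous (QOut.realToInf : ℝ → QOut.Ainf) := by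
  refine continuous_pi fun w => ?_
  exact (InfinitePlace.Completion.isometryEquivRealOfIsReal
    (QOut.isReal_place w)).symm.continuous

theorem continuous_matInf729 :
    Continuous (QOut.matInf : Matrix (Fin 2) (Fin 2) ℝ → Matrix (Fin 2) (Fin 2) (A0.Adl ℚ)) := by
  refine continuous_matrix fun i j => ?_
  have h1 : Continuous fun m : Matrix (Fin 2) (Fin 2) ℝ => QOut.realToInf (m i j) :=
    continuous_realToInf729.comp (continuous_id.matrix_elem i j)
  exact Continuous.prodMk h1 continuous_const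

theorem continuous_locInf729 : Continuous (QOut.locInf : GL (Fin 2) ℝ → A0.G ℚ) :=
  Continuous.units_map QOut.matInf continuous_matInf729

/-- continuity of a map into `GL₂(ℝ)` given by matrices of determinant `≠ 0` -/
theorem continuous_mkOfDetNeZero729 {X : Type*} [TopologicalSpace X]
    (M : X → Matrix (Fin 2) (Fin 2) ℝ) (hM : ∀ x, (M x).det ≠ 0) (hc : Continuous M) :
    Continuous fun x => Matrix.GeneralLinearGroup.mkOfDetNeZero (M x) (hM x) := by
  rw [Units.continuous_iff]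
  refine ⟨hc, ?_⟩
  have h2 : (fun x => ((Matrix.GeneralLinearGroup.mkOfDetNeZero (M x) (hM x))⁻¹ :
      GL (Fin 2) ℝ).val) = fun x => (M x)⁻¹ := by
    funext x
    rw [Matrix.coe_units_inv]
    rfl
  show Continuous fun x => ((Matrix.GeneralLinearGroup.mkOfDetNeZero (M x) (hM x))⁻¹ :
      GL (Fin 2) ℝ).val
  rw [h2]
  have h3 : (fun x => (M x)⁻¹) = fun x => ((M x).det)⁻¹ • (M x).adjugate := by
    funext x
    rw [Matrix.inv_def, Ring.inverse_eq_inv']
  rw [h3]
  exact ((hc.matrix_det).inv₀ hM).smul hc.matrix_adjugate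

/-! ## 2. The elements `k_φ`, `a_t` of `GL₂(ℝ)` -/

/-- the rotation of angle `φ` -/
def rotM729 (φ : ℝ) : Matrix (Fin 2) (Fin 2) ℝ :=
  !![Real.cos φ, -Real.sin φ; Real.sin φ, Real.cos φ]

/-- `diag(e^{t/2}, e^{-t/2})` -/
def torM729 (t : ℝ) : Matrix (Fin 2) (Fin 2) ℝ :=
  !![Real.exp (t / 2), 0; 0, Real.exp (-(t / 2))]

theorem det_rotM729 (φ : ℝ) : (rotM729 φ).det = 1 := by
  rw [rotM729, Matrix.det_fin_two_of]
  nlinarith [Real.cos_sq_add_sin_sq φ]

theorem det_torM729 (t : ℝ) : (torM729 t).det = 1 := by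
  rw [torM729, Matrix.det_fin_two_of, mul_zero, sub_zero, ← Real.exp_add, add_neg_cancel,
    Real.exp_zero]

/-- `k_φ` in `GL₂(ℝ)` -/
def rotG729 (φ : ℝ) : GL (Fin 2) ℝ :=
  Matrix.GeneralLinearGroup.mkOfDetNeZero (rotM729 φ) (by rw [det_rotM729]; exact one_ne_zero)

/-- `a_t` in `GL₂(ℝ)` -/
def torG729 (t : ℝ) : GL (Fin 2) ℝ :=
  Matrix.GeneralLinearGroup.mkOfDetNeZero (torM729 t) (by rw [det_torM729]; exact one_ne_zero)

theorem val_rotG729 (φ : ℝ) : ((rotG729 φ : GL (Fin 2) ℝ) : Matrix (Fin 2) (Fin 2) ℝ)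
    = rotM729 φ := rfl

theorem val_torG729 (t : ℝ) : ((torG729 t : GL (Fin 2) ℝ) : Matrix (Fin 2) (Fin 2) ℝ)
    = torM729 t := rfl

theorem continuous_rotG729 : Continuous (rotG729 : ℝ → GL (Fin 2) ℝ) := by
  refine continuous_mkOfDetNeZero729 (fun φ : ℝ => rotM729 φ) _ ?_
  refine continuous_matrix fun i j => ?_
  fin_cases i <;> fin_cases j <;> simp [rotM729] <;> fun_prop

theorem inSO2_rotG729 (φ : ℝ) : T6.InSO2 (rotG729 φ) := by
  constructor
  · show rotM729 φ * (rotM729 φ).transpose = 1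
    ext i j
    fin_cases i <;> fin_cases j <;>
      simp [rotM729, Matrix.mul_apply, Fin.sum_univ_two] <;>
      nlinarith [Real.sin_sq_add_cos_sq φ]
  · exact det_rotM729 φ

theorem rotG_add_two_pi729 (φ : ℝ) : rotG729 (φ + 2 * Real.pi) = rotG729 φ := by
  apply Units.ext
  show rotM729 (φ + 2 * Real.pi) = rotM729 φ
  simp [rotM729, Real.cos_add_two_pi, Real.sin_add_two_pi]

theorem rotG_add_pi_mul729 (φ t : ℝ) :
    rotG729 (φ + Real.pi) * torG729 t = rotG729 φ * torG729 t * rotG729 Real.pi := by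
  apply Units.ext
  show rotM729 (φ + Real.pi) * torM729 t = rotM729 φ * torM729 t * rotM729 Real.pi
  ext i j
  fin_cases i <;> fin_cases j <;>
    simp [rotM729, torM729, Matrix.mul_apply, Fin.sum_univ_two, Real.cos_add_pi,
      Real.sin_add_pi, Real.cos_pi, Real.sin_pi]

/-- the entries of an element of `SO(2)` -/
theorem so2_entries729 {k : GL (Fin 2) ℝ} (hk : T6.InSO2 k) :
    (k : Matrix (Fin 2) (Fin 2) ℝ) 1 1 = (k : Matrix (Fin 2) (Fin 2) ℝ) 0 0 ∧
      (k : Matrix (Fin 2) (Fin 2) ℝ) 1 0 = -(k : Matrix (Fin 2) (Fin 2) ℝ) 0 1 ∧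
      (k : Matrix (Fin 2) (Fin 2) ℝ) 0 0 ^ 2 + (k : Matrix (Fin 2) (Fin 2) ℝ) 0 1 ^ 2 = 1 := by
  obtain ⟨h1, h2⟩ := hk
  have e00 := congrFun (congrFun h1 0) 0
  have e01 := congrFun (congrFun h1 0) 1
  rw [Matrix.mul_apply, Fin.sum_univ_two] at e00 e01
  simp only [Matrix.transpose_apply, Matrix.one_apply_eq] at e00
  simp only [Matrix.transpose_apply] at e01
  rw [Matrix.one_apply_ne (by decide)] at e01
  rw [Matrix.det_fin_two] at h2
  refine ⟨?_, ?_, ?_⟩
  · linear_combination (k : Matrix (Fin 2) (Fin 2) ℝ) 0 0 * h2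
      + (k : Matrix (Fin 2) (Fin 2) ℝ) 0 1 * e01 - (k : Matrix (Fin 2) (Fin 2) ℝ) 1 1 * e00
  · linear_combination (k : Matrix (Fin 2) (Fin 2) ℝ) 0 0 * e01
      - (k : Matrix (Fin 2) (Fin 2) ℝ) 0 1 * h2 - (k : Matrix (Fin 2) (Fin 2) ℝ) 1 0 * e00
  · linear_combination e00

/-! ## 3. Local elements at the real place -/

theorem isArchCompact_locInf729 (w : InfinitePlace ℚ) {k : GL (Fin 2) ℝ} (hk : T6.InSO2 k) :
    IsArchCompact w (QOut.locInf k) := by
  refine ⟨QOut.isLocalAtInf_locInf w k, ?_, fun _ => ?_⟩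
  · rw [QOut.infComp_locInf]
    ext i j
    rw [Matrix.mul_apply, Fin.sum_univ_two]
    simp only [Matrix.conjTranspose_apply, Matrix.map_apply, Complex.star_def,
      Complex.conj_ofReal]
    have h := congrFun (congrFun hk.1 i) j
    rw [Matrix.mul_apply, Fin.sum_univ_two] at h
    simp only [Matrix.transpose_apply] at h
    rw [← Complex.ofReal_mul, ← Complex.ofReal_mul, ← Complex.ofReal_add, h]
    by_cases hij : i = j
    · subst hij
      simp
    · simp [Matrix.one_apply_ne hij]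
  · rw [QOut.infComp_locInf, Matrix.det_fin_two]
    simp only [Matrix.map_apply]
    have h := hk.2
    rw [Matrix.det_fin_two] at h
    rw [← Complex.ofReal_mul, ← Complex.ofReal_mul, ← Complex.ofReal_sub, h, Complex.ofReal_one]

theorem isArchPosScalar_locInf729 (w : InfinitePlace ℚ) {z : GL (Fin 2) ℝ} {r : ℝ} (hr : 0 < r)
    (hz : (z : Matrix (Fin 2) (Fin 2) ℝ) = Matrix.diagonal (fun _ => r)) :
    IsArchPosScalar w (QOut.locInf z) := by
  refine ⟨QOut.isLocalAtInf_locInf w z, r, hr, ?_⟩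
  rw [QOut.infComp_locInf, hz]
  ext i j
  fin_cases i <;> fin_cases j <;> simp [Matrix.diagonal]

theorem infComp_rot_tor729 (w : InfinitePlace ℚ) (φ t : ℝ) :
    infComp w (QOut.locInf (rotG729 φ * torG729 t)) = rotY (2 * φ) * torus t := by
  rw [QOut.infComp_locInf, Units.val_mul, val_rotG729, val_torG729]
  have h : 2 * φ / 2 = φ := by ring
  ext i j
  fin_cases i <;> fin_cases j <;>
    simp [rotM729, torM729, rotY, torus, Matrix.mul_apply, Fin.sum_univ_two, h]

theorem infComp_rot_neg_tor729 (w : InfinitePlace ℚ) (θ t : ℝ) :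
    infComp w (QOut.locInf (rotG729 (-θ) * torG729 t)) = QOut.rotC θ * torus t := by
  rw [QOut.infComp_locInf, Units.val_mul, val_rotG729, val_torG729]
  ext i j
  fin_cases i <;> fin_cases j <;>
    simp [rotM729, torM729, QOut.rotC, torus, Matrix.mul_apply, Fin.sum_univ_two]

theorem infComp_rot_neg729 (w : InfinitePlace ℚ) (θ : ℝ) :
    infComp w (QOut.locInf (rotG729 (-θ))) = QOut.rotC θ := by
  rw [QOut.infComp_locInf, val_rotG729]
  ext i j
  fin_cases i <;> fin_cases j <;> simp [rotM729, QOut.rotC]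

/-- the weight one type on `SO(2)` is the weight `-1` of `T6.wtChar` -/
theorem wtOne_locInf729 {k : GL (Fin 2) ℝ} (hk : T6.InSO2 k) :
    wtOne (QOut.locInf k) = T6.wtChar (-1) k := by
  obtain ⟨h11, h10, hsq⟩ := so2_entries729 hk
  unfold wtOne T6.wtChar T6.holPart
  rw [QOut.infComp_locInf, h11, h10, zpow_neg_one]
  simp only [Matrix.map_apply]
  apply eq_inv_of_mul_eq_one_left
  have hsq' : (((k : Matrix (Fin 2) (Fin 2) ℝ) 0 0 : ℝ) : ℂ) ^ 2
      + (((k : Matrix (Fin 2) (Fin 2) ℝ) 0 1 : ℝ) : ℂ) ^ 2 = 1 := by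
    exact_mod_cast hsq
  push_cast
  linear_combination hsq' - (((k : Matrix (Fin 2) (Fin 2) ℝ) 0 1 : ℝ) : ℂ) ^ 2 * Complex.I_sq

theorem wtChar_zero729 (k : GL (Fin 2) ℝ) : T6.wtChar 0 k = 1 := by
  unfold T6.wtChar
  exact zpow_zero _

/-! ## 4. The adapter -/

/-- **The adapter of `T6.ArchClassC`.**  If `ψ ≠ 0` is continuous on `GL₂(𝔸_ℚ)`, of type `τ` under
`SO(2)` at the real place (`τ = T6.wtChar n` on `SO(2)`), invariant under the positive scalars,
and an eigenfunction of the twisted circle means `∫ τ(k_θ⁻¹) ψ (g k_θ a_t) dθ` with the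
eigenvalues `m t`, then `m t = 2π · sphRad n s (cosh t)` for some `s`. -/
theorem archClass_apply729 (hArch : T6.ArchClassC) (n : ℤ) (hn : n = 0 ∨ n = 1 ∨ n = -1)
    (ψ τ : G ℚ → ℂ) (m : ℝ → ℂ) (hcont : Continuous ψ) (hne : ∃ y : G ℚ, ψ y ≠ 0)
    (hτ : ∀ k : GL (Fin 2) ℝ, T6.InSO2 k → τ (QOut.locInf k) = T6.wtChar n k)
    (hwt : ∀ k : G ℚ, IsArchCompact Rat.infinitePlace k → ∀ g : G ℚ, ψ (g * k) = τ k * ψ g)
    (hsc : ∀ z : G ℚ, IsArchPosScalar Rat.infinitePlace z → ∀ g : G ℚ, ψ (g * z) = ψ g)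
    (hmean : ∀ t : ℝ, 0 < t → ∀ g : G ℚ,
      (∫ θ in (0 : ℝ)..(2 * Real.pi),
        τ (QOut.locInf (rotG729 (-θ))) * ψ (g * QOut.locInf (rotG729 θ * torG729 t)))
        = m t * ψ g) :
    ∃ s : ℂ, ∀ t : ℝ, 0 < t → m t = ((2 * Real.pi : ℝ) : ℂ) * T6.sphRad n s (Real.cosh t) := by
  obtain ⟨y₀, hy₀⟩ := hne
  have h2pi : ((2 * Real.pi : ℝ) : ℂ) ≠ 0 := by
    have : (2 * Real.pi : ℝ) ≠ 0 := by positivity
    exact_mod_cast this
  have key : ∃ s : ℂ, ∀ t : ℝ, 0 < t →
      m t / ((2 * Real.pi : ℝ) : ℂ) = T6.sphRad n s (Real.cosh t) := by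
    refine hArch n hn (fun x => ψ (y₀ * QOut.locInf x))
      (fun t => m t / ((2 * Real.pi : ℝ) : ℂ)) ?_ ?_ ?_ ?_ ?_
    · exact hcont.comp (continuous_const.mul continuous_locInf729)
    · refine ⟨1, ?_⟩
      show ψ (y₀ * QOut.locInf 1) ≠ 0
      rw [map_one, mul_one]
      exact hy₀
    · intro k g hk
      show ψ (y₀ * QOut.locInf (g * k)) = T6.wtChar n k * ψ (y₀ * QOut.locInf g)
      rw [map_mul, ← mul_assoc, hwt _ (isArchCompact_locInf729 _ hk), hτ k hk]
    · intro z g r hr hz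
      show ψ (y₀ * QOut.locInf (g * z)) = ψ (y₀ * QOut.locInf g)
      rw [map_mul, ← mul_assoc, hsc _ (isArchPosScalar_locInf729 _ hr hz)]
    · intro t ht Y hY x
      have hYeq : ∀ θ, Y θ = rotG729 θ * torG729 t * rotG729 (-θ) := by
        intro θ
        apply Units.ext
        rw [hY θ]
        show _ = rotM729 θ * torM729 t * rotM729 (-θ)
        simp only [rotM729, torM729, Real.cos_neg, Real.sin_neg, neg_neg]
      have hint : ∀ θ, ψ (y₀ * QOut.locInf (x * Y θ))
          = τ (QOut.locInf (rotG729 (-θ)))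
            * ψ (y₀ * QOut.locInf x * QOut.locInf (rotG729 θ * torG729 t)) := by
        intro θ
        have h1 : y₀ * QOut.locInf (x * Y θ)
            = (y₀ * QOut.locInf x * QOut.locInf (rotG729 θ * torG729 t))
              * QOut.locInf (rotG729 (-θ)) := by
          rw [hYeq θ, map_mul, map_mul (QOut.locInf) (rotG729 θ * torG729 t)]
          simp only [mul_assoc]
        rw [h1, hwt _ (isArchCompact_locInf729 _ (inSO2_rotG729 _))]
      show (∫ θ in (0 : ℝ)..(2 * Real.pi), ψ (y₀ * QOut.locInf (x * Y θ)))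
        = ((2 * Real.pi : ℝ) : ℂ) * (m t / ((2 * Real.pi : ℝ) : ℂ)) * ψ (y₀ * QOut.locInf x)
      simp only [hint]
      rw [hmean t ht]
      field_simp
  obtain ⟨s, hs⟩ := key
  refine ⟨s, fun t ht => ?_⟩
  have h := hs t ht
  rw [← h]
  field_simp

/-- The circle means of weight `0` (`L2Q.MeanEigR0`) in the form of `archClass_apply729`. -/
theorem mean_w0_729 {ψ : G ℚ → ℂ} {m : ℝ → ℂ} (hcont : Continuous ψ)
    (hwt : ∀ k : G ℚ, IsArchCompact Rat.infinitePlace k →
      ∀ g : G ℚ, ψ (g * k) = T5.trivType k * ψ g)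
    (hmean : MeanEigR0 ψ Rat.infinitePlace m) (t : ℝ) (ht : 0 < t) (g : G ℚ) :
    (∫ θ in (0 : ℝ)..(2 * Real.pi),
        T5.trivType (QOut.locInf (rotG729 (-θ)))
          * ψ (g * QOut.locInf (rotG729 θ * torG729 t)))
      = m t * ψ g := by
  have h1 := hmean t ht (fun θ => QOut.locInf (rotG729 (θ / 2) * torG729 t))
    (fun θ => ⟨QOut.isLocalAtInf_locInf _ _, by
      rw [infComp_rot_tor729]
      congr 2
      ring⟩) g
  have hFc : Continuous fun φ : ℝ => ψ (g * QOut.locInf (rotG729 φ * torG729 t)) :=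
    hcont.comp (continuous_const.mul
      (continuous_locInf729.comp (continuous_rotG729.mul continuous_const)))
  have hper : Function.Periodic
      (fun φ : ℝ => ψ (g * QOut.locInf (rotG729 φ * torG729 t))) Real.pi := by
    intro φ
    show ψ (g * QOut.locInf (rotG729 (φ + Real.pi) * torG729 t))
      = ψ (g * QOut.locInf (rotG729 φ * torG729 t))
    rw [rotG_add_pi_mul729, map_mul, ← mul_assoc,
      hwt _ (isArchCompact_locInf729 _ (inSO2_rotG729 _))]
    simp [T5.trivType]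
  have h2 : (∫ θ in (0 : ℝ)..(2 * Real.pi), ψ (g * QOut.locInf (rotG729 (θ / 2) * torG729 t)))
      = (2 : ℝ) • ∫ φ in (0 : ℝ)..Real.pi, ψ (g * QOut.locInf (rotG729 φ * torG729 t)) := by
    have h := intervalIntegral.integral_comp_div (a := 0) (b := 2 * Real.pi) (c := 2)
      (fun φ : ℝ => ψ (g * QOut.locInf (rotG729 φ * torG729 t))) two_ne_zero
    rw [h]
    congr 2
    · simp
    · ring
  have h3 : (∫ φ in (0 : ℝ)..(2 * Real.pi), ψ (g * QOut.locInf (rotG729 φ * torG729 t)))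
      = (2 : ℝ) • ∫ φ in (0 : ℝ)..Real.pi, ψ (g * QOut.locInf (rotG729 φ * torG729 t)) := by
    have hsplit := intervalIntegral.integral_add_adjacent_intervals
      (hFc.intervalIntegrable (μ := volume) 0 Real.pi)
      (hFc.intervalIntegrable (μ := volume) Real.pi (2 * Real.pi))
    have hshift : (∫ φ in Real.pi..(2 * Real.pi),
          ψ (g * QOut.locInf (rotG729 φ * torG729 t)))
        = ∫ φ in (0 : ℝ)..Real.pi, ψ (g * QOut.locInf (rotG729 φ * torG729 t)) := by
      have h := hper.intervalIntegral_add_eq Real.pi 0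
      rw [zero_add] at h
      rw [← h]
      congr 1
      ring
    rw [← hsplit, hshift, two_smul]
  simp only [T5.trivType, one_mul]
  rw [h3, ← h2]
  exact h1

/-- The circle means of weight one (`L2Q.MeanEigR1`) in the form of `archClass_apply729`. -/
theorem mean_w1_729 {ψ : G ℚ → ℂ} {m : ℝ → ℂ}
    (hmean : MeanEigR1 ψ Rat.infinitePlace m) (t : ℝ) (ht : 0 < t) (g : G ℚ) :
    (∫ θ in (0 : ℝ)..(2 * Real.pi),
        wtOne (QOut.locInf (rotG729 (-θ))) * ψ (g * QOut.locInf (rotG729 θ * torG729 t)))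
      = m t * ψ g := by
  have h1 := hmean t ht (fun θ => QOut.locInf (rotG729 (-θ) * torG729 t))
    (fun θ => ⟨QOut.isLocalAtInf_locInf _ _, infComp_rot_neg_tor729 _ θ t⟩) g
  have hneg : ∀ θ : ℝ, rotG729 (-(θ + 2 * Real.pi)) = rotG729 (-θ) := by
    intro θ
    have h := rotG_add_two_pi729 (-(θ + 2 * Real.pi))
    rw [← h]
    congr 1
    ring
  have hper : Function.Periodic
      (fun θ : ℝ => wtOne (QOut.locInf (rotG729 (-θ)))
        * ψ (g * QOut.locInf (rotG729 θ * torG729 t))) (2 * Real.pi) := by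
    intro θ
    show wtOne (QOut.locInf (rotG729 (-(θ + 2 * Real.pi))))
        * ψ (g * QOut.locInf (rotG729 (θ + 2 * Real.pi) * torG729 t))
      = wtOne (QOut.locInf (rotG729 (-θ))) * ψ (g * QOut.locInf (rotG729 θ * torG729 t))
    rw [hneg, rotG_add_two_pi729]
  have hH : ∀ θ : ℝ, Complex.exp (-(Complex.I * ((θ : ℝ) : ℂ)))
        * ψ (g * QOut.locInf (rotG729 (-θ) * torG729 t))
      = (fun θ : ℝ => wtOne (QOut.locInf (rotG729 (-θ)))
        * ψ (g * QOut.locInf (rotG729 θ * torG729 t))) (-θ) := by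
    intro θ
    show _ = wtOne (QOut.locInf (rotG729 (- -θ))) * ψ (g * QOut.locInf (rotG729 (-θ) * torG729 t))
    rw [wtOne_rotC (infComp_rot_neg729 _ (-θ))]
    congr 2
    push_cast
    ring
  simp only [hH] at h1
  rw [intervalIntegral.integral_comp_neg
    (fun θ : ℝ => wtOne (QOut.locInf (rotG729 (-θ)))
        * ψ (g * QOut.locInf (rotG729 θ * torG729 t)))] at h1
  have h := hper.intervalIntegral_add_eq (-(2 * Real.pi)) 0
  rw [zero_add] at h
  rw [← h1, ← h]
  congr 1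
  ring

end Fermat.Agent.LT.T7.SphQ729

end
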