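import Mathlib
import Fermat.Agent.LT.T7.H140.SpecDownQSpec
import Fermat.Agent.LT.T7.H729.SphFormQCore

/-!
# Row LT, tower T7, leaf T7.L2Q.3.3 `SDQ140.SphFormQC` (helper729)

OFF-MAIN.  PROVED (no hole, nothing assumed beyond the hypothesis `T6.ArchClassC`, which is closed
elsewhere).  ADDITIVE (new names only).  Spec: `LT/T7/H140/SpecDownQSpec.lean`
(helper140@26e3e6c54, sha256 7aa829b7), byte-identical copy.

    sphFormQC729 : T6.ArchClassC → ∀ n : L2Q.QWt, SDQ140.SphFormQC n

Route (as in the docstring of the leaf): `e x = ψ (y₀ · locInf x)` with `ψ y₀ ≠ 0`; `e` is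
continuous, of weight `n.wt` for `T6.wtChar`, invariant under the positive scalars; the circle
means of `T6.ArchClassC` are those of `L2Q.MeanEigR0` (substitution `θ = 2 φ`, the integrand is
`π`-periodic) resp. `L2Q.MeanEigR1` (substitution `θ ↦ -θ`, `2π`-periodic).
-/

set_option autoImplicit false

open AutomorphicForm IsDedekindDomain NumberField MeasureTheory
open scoped ComplexConjugate

noncomputable section

namespace Fermat.Agent.LT.T7.SphQ729

open Fermat.Agent.LT.H556 Fermat.Agent.LT.H556.A0 Fermat.Agent.LT.H670 Fermat.Agent.LT.T7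
open Fermat.Agent.LT.T7.L2Q Fermat.Agent.LT.T7.SDQ140

/-- **LEAF T7.L2Q.3.3, type `w0`.** -/
theorem sphFormQC_w0_729 (hArch : T6.ArchClassC) : SphFormQC QWt.w0 := by
  intro 𝔫 r u ψ c _ hE hne
  have hw : ∀ w : InfinitePlace ℚ, w = Rat.infinitePlace := fun w => Subsingleton.elim _ _
  have hwt : ∀ k : G ℚ, IsArchCompact Rat.infinitePlace k →
      ∀ g : G ℚ, ψ (g * k) = T5.trivType k * ψ g :=
    hE.inv.cusp.aut.arch_compact Rat.infinitePlace
  have hmean : MeanEigR0 ψ Rat.infinitePlace (c.m Rat.infinitePlace) :=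
    hE.mean Rat.infinitePlace
  obtain ⟨s, hs⟩ := archClass_apply729 hArch 0 (Or.inl rfl) ψ T5.trivType
    (c.m Rat.infinitePlace) hE.inv.cusp.cont hne
    (fun k _ => by rw [wtChar_zero729]; rfl) hwt
    (hE.inv.arch_scalar Rat.infinitePlace)
    (fun t ht g => mean_w0_729 hE.inv.cusp.cont hwt hmean t ht g)
  refine ⟨s, fun w t ht => ?_⟩
  rw [hw w]
  exact hs t ht

/-- **LEAF T7.L2Q.3.3, type `w1`.** -/
theorem sphFormQC_w1_729 (hArch : T6.ArchClassC) : SphFormQC QWt.w1 := by
  intro 𝔫 r u ψ c _ hE hne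
  have hw : ∀ w : InfinitePlace ℚ, w = Rat.infinitePlace := fun w => Subsingleton.elim _ _
  have hwt : ∀ k : G ℚ, IsArchCompact Rat.infinitePlace k →
      ∀ g : G ℚ, ψ (g * k) = wtOne k * ψ g :=
    hE.inv.cusp.aut.arch_compact Rat.infinitePlace
  have hmean : MeanEigR1 ψ Rat.infinitePlace (c.m Rat.infinitePlace) :=
    hE.mean Rat.infinitePlace
  obtain ⟨s, hs⟩ := archClass_apply729 hArch (-1) (Or.inr (Or.inr rfl)) ψ wtOne
    (c.m Rat.infinitePlace) hE.inv.cusp.cont hne
    (fun k hk => wtOne_locInf729 hk) hwt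
    (hE.inv.arch_scalar Rat.infinitePlace)
    (fun t ht g => mean_w1_729 hmean t ht g)
  refine ⟨s, fun w t ht => ?_⟩
  rw [hw w]
  exact hs t ht

/-- **LEAF T7.L2Q.3.3 `SDQ140.SphFormQC`** (both types), from the closed leaf
`T6.ArchClassC`. -/
theorem sphFormQC729 (hArch : T6.ArchClassC) : ∀ n : QWt, SphFormQC n := by
  intro n
  cases n with
  | w0 => exact sphFormQC_w0_729 hArch
  | w1 => exact sphFormQC_w1_729 hArch

end Fermat.Agent.LT.T7.SphQ729

end
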