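import Mathlib
import Fermat.Agent.LT.T7.H558.FactDownSpec

/-!
# Row LT, tower T7, asset leaf T7.L2.1.C2.7.7.1 `H558.OutOpenC558` (helper729)

OFF-MAIN.  PROVED, UNCONDITIONAL (no hole, nothing assumed).  ADDITIVE (new names only).
Spec: `LT/T7/H558/FactDownSpec.lean` (helper558@b6c4c8a4b, sha256 8043f526), byte-identical copy.

    outOpenC729 K : H558.OutOpenC558 K

Route (docstring of the leaf): the finite adeles which are integral outside `S` form an open set
(`RestrictedProduct.isOpen_forall_imp_mem`), the entries of `y` and of `y⁻¹` are continuous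
(topology of units).
-/

set_option autoImplicit false

open AutomorphicForm IsDedekindDomain NumberField MeasureTheory

noncomputable section

namespace Fermat.Agent.LT.T7.OutOpen729

open Fermat.Agent.LT.H556 Fermat.Agent.LT.H556.A0 Fermat.Agent.LT.T7 Fermat.Agent.LT.T7.H305

/-- **ASSET LEAF T7.L2.1.C2.7.7.1 `H558.OutOpenC558`**: `Out_S` is open in `GL₂(𝔸_K)`. -/
theorem outOpenC729 (K : Type) [Field K] [NumberField K] : H558.OutOpenC558 K := by
  intro S
  set U : Set (FiniteAdeleRing (𝓞 K) K) :=
    {f | ∀ v : HeightOneSpectrum (𝓞 K), v ∉ S → f v ∈ v.adicCompletionIntegers K} with hU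
  have hopen : IsOpen U :=
    RestrictedProduct.isOpen_forall_imp_mem
      (A := fun v : HeightOneSpectrum (𝓞 K) =>
        (v.adicCompletionIntegers K : Set (v.adicCompletion K)))
      (fun v => Valued.isOpen_valuationSubring _) (p := fun v => v ∉ S)
  have h1 : ∀ i j : Fin 2,
      Continuous fun y : G K => ((y : Matrix (Fin 2) (Fin 2) (Adl K)) i j).2 :=
    fun i j => continuous_snd.comp ((continuous_id.matrix_elem i j).comp Units.continuous_val)
  have h2 : ∀ i j : Fin 2,
      Continuous fun y : G K => (((y⁻¹ : G K) : Matrix (Fin 2) (Fin 2) (Adl K)) i j).2 :=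
    fun i j => continuous_snd.comp
      ((continuous_id.matrix_elem i j).comp Units.continuous_coe_inv)
  have e : {y : G K | OutT305 S y}
      = (⋂ i : Fin 2, ⋂ j : Fin 2,
          (fun y : G K => ((y : Matrix (Fin 2) (Fin 2) (Adl K)) i j).2) ⁻¹' U)
        ∩ (⋂ i : Fin 2, ⋂ j : Fin 2,
          (fun y : G K => (((y⁻¹ : G K) : Matrix (Fin 2) (Fin 2) (Adl K)) i j).2) ⁻¹' U) := by
    ext y
    simp only [Set.mem_inter_iff, Set.mem_iInter, Set.mem_preimage]
    constructor
    · intro hy
      exact ⟨fun i j v hv => (hy v hv).1 i j, fun i j v hv => (hy v hv).2 i j⟩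
    · rintro ⟨ha, hb⟩ v hv
      exact ⟨fun i j => ha i j v hv, fun i j => hb i j v hv⟩
  rw [e]
  exact (isOpen_iInter_of_finite fun i => isOpen_iInter_of_finite fun j =>
      hopen.preimage (h1 i j)).inter
    (isOpen_iInter_of_finite fun i => isOpen_iInter_of_finite fun j =>
      hopen.preimage (h2 i j))

end Fermat.Agent.LT.T7.OutOpen729

end
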