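import Mathlib
import Fermat.Agent.LT.T7.H298.MatchQCut
import Fermat.Agent.LT.T7.H584.Cutoff
import Fermat.Agent.LT.T6.H846.OrbAlg

/-!
# Row LT, tower T7, leaf T7.L2Q.1.H1.5.1 `MQ298.ArchMeasRC298` (helper729, registry row 2669)

OFF-MAIN.  PROVED, UNCONDITIONAL (no hole, nothing assumed).  ADDITIVE (new names only).
Spec: `LT/T7/H298/MatchQCut.lean` (helper298@076793e90, sha256 74dc2a3c), byte-identical copy.
Assets (byte-identical copies): `T7/H584/Cutoff.lean` (helper584, sha256 cf7491c2,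
`exists_cutoff584`), `T6/H846/OrbAlg.lean` (helper846, `comm_of_comm_reg846`).

    archMeasRC729 : MQ298.ArchMeasRC298

Route (docstring of the leaf): `GL₂(ℝ)` is a locally compact, `σ`-compact group, the centraliser
of a regular element is a closed commutative subgroup, so its Haar measure is right invariant and
`exists_cutoff584` applies.
-/

set_option autoImplicit false
set_option linter.style.haveILetI false

open MeasureTheory

noncomputable section

namespace Fermat.Agent.LT.T7.ArchMeasR729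

open Fermat.Agent.LT.T6 Fermat.Agent.LT.T7 Fermat.Agent.LT.T7.H305

theorem locallyCompact_GL2R729 : LocallyCompactSpace (GL (Fin 2) ℝ) := by
  haveI : LocallyCompactSpace (Matrix (Fin 2) (Fin 2) ℝ) :=
    inferInstanceAs (LocallyCompactSpace (Fin 2 → Fin 2 → ℝ))
  haveI : LocallyCompactSpace (Matrix (Fin 2) (Fin 2) ℝ)ᵐᵒᵖ :=
    (MulOpposite.opHomeomorph
      (M := Matrix (Fin 2) (Fin 2) ℝ)).symm.isClosedEmbedding.locallyCompactSpace
  exact (Units.isClosedEmbedding_embedProduct
    (α := Matrix (Fin 2) (Fin 2) ℝ)).locallyCompactSpace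

theorem sigmaCompact_GL2R729 : SigmaCompactSpace (GL (Fin 2) ℝ) := by
  haveI : SigmaCompactSpace (Matrix (Fin 2) (Fin 2) ℝ) :=
    inferInstanceAs (SigmaCompactSpace (Fin 2 → Fin 2 → ℝ))
  haveI : SigmaCompactSpace (Matrix (Fin 2) (Fin 2) ℝ)ᵐᵒᵖ :=
    MulOpposite.opHomeomorph.symm.isClosedEmbedding.sigmaCompactSpace
  exact Units.isClosedEmbedding_embedProduct.sigmaCompactSpace

/-- The centraliser is closed. -/
theorem isClosed_centR729 {H : Type} [Group H] [TopologicalSpace H] [IsTopologicalGroup H]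
    [T2Space H] (γ : H) : IsClosed ((cent305 γ : Subgroup H) : Set H) := by
  have h : ((cent305 γ : Subgroup H) : Set H) = {x : H | x⁻¹ * γ * x = γ} := rfl
  rw [h]
  exact isClosed_eq ((continuous_inv.mul continuous_const).mul continuous_id) continuous_const

/-- The centraliser of a regular element of `GL₂(F)` is commutative. -/
theorem cent_commR729 {F : Type} [Field F] (γ : GL (Fin 2) F) (hγ : IsReg γ)
    (a b : cent305 γ) : a * b = b * a := by
  have hD : (γ : Matrix (Fin 2) (Fin 2) F).trace ^ 2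
      - 4 * (γ : Matrix (Fin 2) (Fin 2) F).det ≠ 0 := IsUnit.ne_zero hγ
  have key : ∀ x : cent305 γ, ((x : GL (Fin 2) F) : Matrix (Fin 2) (Fin 2) F)
      * (γ : Matrix (Fin 2) (Fin 2) F)
      = (γ : Matrix (Fin 2) (Fin 2) F) * ((x : GL (Fin 2) F) : Matrix (Fin 2) (Fin 2) F) := by
    intro x
    have hx : (x : GL (Fin 2) F)⁻¹ * γ * (x : GL (Fin 2) F) = γ := x.2
    have hx' : (x : GL (Fin 2) F) * γ = γ * (x : GL (Fin 2) F) := by
      calc (x : GL (Fin 2) F) * γ
          = (x : GL (Fin 2) F) * ((x : GL (Fin 2) F)⁻¹ * γ * (x : GL (Fin 2) F)) := by rw [hx]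
        _ = γ * (x : GL (Fin 2) F) := by group
    rw [← Units.val_mul, ← Units.val_mul, hx']
  apply Subtype.ext
  apply Units.ext
  show ((a : GL (Fin 2) F) : Matrix (Fin 2) (Fin 2) F) * ((b : GL (Fin 2) F) : Matrix _ _ F)
    = ((b : GL (Fin 2) F) : Matrix (Fin 2) (Fin 2) F) * ((a : GL (Fin 2) F) : Matrix _ _ F)
  exact H846.comm_of_comm_reg846 _ _ _ hD (key a) (key b)

/-- **LEAF T7.L2Q.1.H1.5.1 `MQ298.ArchMeasRC298`.** -/
theorem archMeasRC729 : MQ298.ArchMeasRC298 := by
  intro γ hγ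
  haveI := locallyCompact_GL2R729
  haveI := sigmaCompact_GL2R729
  have hcl : IsClosed ((cent305 γ : Subgroup (GL (Fin 2) ℝ)) : Set (GL (Fin 2) ℝ)) :=
    isClosed_centR729 γ
  haveI : LocallyCompactSpace (cent305 γ) :=
    hcl.isClosedEmbedding_subtypeVal.locallyCompactSpace
  letI : MeasurableSpace (cent305 γ) := borel _
  haveI : BorelSpace (cent305 γ) := ⟨rfl⟩
  refine ⟨⟨Measure.haar, inferInstance⟩, ?_⟩
  intro μT hμT
  haveI := hμT
  haveI : μT.IsMulRightInvariant := ⟨fun g => by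
    have e : (fun t : cent305 γ => t * g) = fun t => g * t := by
      funext t
      exact cent_commR729 γ hγ t g
    rw [e]
    exact map_mul_left_eq_self μT g⟩
  obtain ⟨β, hβc, hβ0, -, hβ1⟩ := H584.exists_cutoff584 (cent305 γ) μT hcl
  exact ⟨β, hβc, hβ0, hβ1⟩

end Fermat.Agent.LT.T7.ArchMeasR729

end
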