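import Mathlib
import Fermat.Agent.LT.T6.Spec
import Fermat.Agent.LT.T6.H420.ValTop
import Fermat.Agent.LT.T6.H420.GLTop
import Fermat.Agent.LT.T6.H846.OrbAlg

/-!
# Row LT, tower T7, leaf T7.L2.1.C2.7.1 `H305.LocMeasC305` (helper729): the core

OFF-MAIN.  Proved lemmas only (no hole, nothing assumed).  ADDITIVE (new names only).
Assets (byte-identical copies): `T6/H420/{ValTop,GLTop}.lean` (helper420: topology of `GL₂` of an
abstract local field), `T6/H846/OrbAlg.lean` (helper846: `twCent_comm_norm846`).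

* `exists_haar_eq_one729` : a topological group with a compact open set `C ∋ 1` has a Haar
  measure (Borel σ-algebra) with `μ C = 1`;
* `entry_le729` : a matrix commuting with a regular `γ`, with integral trace and determinant, has
  entries bounded in terms of `γ` (`y² · disc γ = u² · disc g` for the off-diagonal coordinates);
* `isCompact_cent729` : `{g : g γ = γ g, tr g integral, det g a unit}` is compact in `GL₂(k)`;
* `exists_locHaar729`, `exists_locTor729` : the two halves of the leaf.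
-/

set_option autoImplicit false
set_option linter.style.haveILetI false

open MeasureTheory

noncomputable section

namespace Fermat.Agent.LT.T7.LocMeas729

open Fermat.Agent.LT.T6

/-! ## 1. Haar measures normalised on a compact open set -/

theorem exists_haar_eq_one729 {G : Type} [Group G] [TopologicalSpace G] [IsTopologicalGroup G]
    (C : Set G) (hC : IsCompact C) (hO : IsOpen C) (h1 : (1 : G) ∈ C) :
    ∃ μ : @Measure G (borel G), @Measure.IsHaarMeasure G _ _ (borel G) μ ∧ μ C = 1 := by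
  letI : MeasurableSpace G := borel G
  haveI : BorelSpace G := ⟨rfl⟩
  let K₀ : TopologicalSpace.PositiveCompacts G :=
    ⟨⟨C, hC⟩, ⟨1, by rw [hO.interior_eq]; exact h1⟩⟩
  exact ⟨Measure.haarMeasure K₀, Measure.isHaarMeasure_haarMeasure K₀,
    Measure.haarMeasure_self (K₀ := K₀)⟩

section Field

variable {k : Type} [Field k] [Valued k Γ₀]

/-! ## 2. Valuations -/

theorem val_two_le_one729 : Valued.v (2 : k) ≤ 1 := by
  have h : (2 : k) = 1 + 1 := by norm_num
  rw [h]
  exact (Valued.v.map_add _ _).trans (by simp)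

theorem val_four_le_one729 : Valued.v (4 : k) ≤ 1 := by
  have h : (4 : k) = 2 * 2 := by norm_num
  rw [h, map_mul]
  exact mul_le_one' val_two_le_one729 val_two_le_one729

theorem val_le_of_sq729 {y u D d : k} (hD : D ≠ 0) (h : y ^ 2 * D = u ^ 2 * d)
    (hd : Valued.v d ≤ 1) : Valued.v y ≤ max 1 (Valued.v u ^ 2 / Valued.v D) := by
  have hvD : Valued.v D ≠ 0 := (Valuation.ne_zero_iff _).2 hD
  have hvD' : 0 < Valued.v D := zero_lt_iff.2 hvD
  have h1 : Valued.v y ^ 2 * Valued.v D = Valued.v u ^ 2 * Valued.v d := by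
    rw [← map_pow, ← map_mul, h, map_mul, map_pow]
  have h2 : Valued.v y ^ 2 ≤ Valued.v u ^ 2 / Valued.v D := by
    rw [le_div_iff₀ hvD', h1]
    calc Valued.v u ^ 2 * Valued.v d ≤ Valued.v u ^ 2 * 1 := mul_le_mul' le_rfl hd
      _ = Valued.v u ^ 2 := mul_one _
  rcases le_or_gt (Valued.v y) 1 with hy | hy
  · exact le_max_of_le_left hy
  · refine le_max_of_le_right (le_trans ?_ h2)
    calc Valued.v y = Valued.v y * 1 := (mul_one _).symm
      _ ≤ Valued.v y * Valued.v y := mul_le_mul' le_rfl hy.le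
      _ = Valued.v y ^ 2 := (sq _).symm

/-! ## 3. The entries of the elements of the centraliser of a regular element -/

/-- The bound of the off-diagonal coordinates. -/
def offBound729 (γ : Matrix (Fin 2) (Fin 2) k) : Γ₀ :=
  max (max 1 (Valued.v (γ 0 1) ^ 2 / Valued.v (γ.trace ^ 2 - 4 * γ.det)))
    (max (max 1 (Valued.v (γ 1 0) ^ 2 / Valued.v (γ.trace ^ 2 - 4 * γ.det)))
      (max 1 (Valued.v (γ 0 0 - γ 1 1) ^ 2 / Valued.v (γ.trace ^ 2 - 4 * γ.det))))

/-- The bound of the entries. -/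
def entBound729 (γ : Matrix (Fin 2) (Fin 2) k) : Γ₀ := offBound729 γ / Valued.v (2 : k)

theorem one_le_offBound729 (γ : Matrix (Fin 2) (Fin 2) k) : 1 ≤ offBound729 γ :=
  le_max_of_le_left (le_max_left _ _)

theorem entry_le729 [CharZero k] (γ g : Matrix (Fin 2) (Fin 2) k)
    (hD : γ.trace ^ 2 - 4 * γ.det ≠ 0) (hc : g * γ = γ * g)
    (htr : Valued.v g.trace ≤ 1) (hdet : Valued.v g.det ≤ 1) (i j : Fin 2) :
    Valued.v (g i j) ≤ entBound729 γ := by
  have e00 := congrFun (congrFun hc 0) 0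
  have e01 := congrFun (congrFun hc 0) 1
  have e10 := congrFun (congrFun hc 1) 0
  simp only [Matrix.mul_apply, Fin.sum_univ_two] at e00 e01 e10
  have hDg : Valued.v (g.trace ^ 2 - 4 * g.det) ≤ 1 := by
    refine (Valued.v.map_sub _ _).trans (max_le ?_ ?_)
    · rw [map_pow]
      exact pow_le_one' htr 2
    · rw [map_mul]
      exact mul_le_one' val_four_le_one729 hdet
  have hγt : γ.trace = γ 0 0 + γ 1 1 := Matrix.trace_fin_two γ
  have hγd : γ.det = γ 0 0 * γ 1 1 - γ 0 1 * γ 1 0 := Matrix.det_fin_two γ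
  have hgt : g.trace = g 0 0 + g 1 1 := Matrix.trace_fin_two g
  have hgd : g.det = g 0 0 * g 1 1 - g 0 1 * g 1 0 := Matrix.det_fin_two g
  have I1 : g 0 1 ^ 2 * (γ.trace ^ 2 - 4 * γ.det) = γ 0 1 ^ 2 * (g.trace ^ 2 - 4 * g.det) := by
    rw [hγt, hγd, hgt, hgd]
    linear_combination (-(g 0 1 * (γ 0 0 - γ 1 1) + γ 0 1 * (g 0 0 - g 1 1))) * e01
      + (4 * g 0 1 * γ 0 1) * e00
  have I2 : g 1 0 ^ 2 * (γ.trace ^ 2 - 4 * γ.det) = γ 1 0 ^ 2 * (g.trace ^ 2 - 4 * g.det) := by
    rw [hγt, hγd, hgt, hgd]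
    linear_combination (g 1 0 * (γ 0 0 - γ 1 1) + γ 1 0 * (g 0 0 - g 1 1)) * e10
      - (4 * g 1 0 * γ 1 0) * e00
  have I3 : (g 0 0 - g 1 1) ^ 2 * (γ.trace ^ 2 - 4 * γ.det)
      = (γ 0 0 - γ 1 1) ^ 2 * (g.trace ^ 2 - 4 * g.det) := by
    rw [hγt, hγd, hgt, hgd]
    linear_combination (4 * (g 0 0 - g 1 1) * γ 1 0) * e01
      - (4 * (γ 0 0 - γ 1 1) * g 0 1) * e10
  have b01 : Valued.v (g 0 1) ≤ offBound729 γ :=
    (val_le_of_sq729 hD I1 hDg).trans (le_max_left _ _)
  have b10 : Valued.v (g 1 0) ≤ offBound729 γ :=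
    (val_le_of_sq729 hD I2 hDg).trans (le_max_of_le_right (le_max_left _ _))
  have bd : Valued.v (g 0 0 - g 1 1) ≤ offBound729 γ :=
    (val_le_of_sq729 hD I3 hDg).trans (le_max_of_le_right (le_max_right _ _))
  have h2 : (2 : k) ≠ 0 := two_ne_zero
  have hv2 : 0 < Valued.v (2 : k) := zero_lt_iff.2 ((Valuation.ne_zero_iff _).2 h2)
  have hoff : ∀ x : k, Valued.v x ≤ offBound729 γ → Valued.v x ≤ entBound729 γ := by
    intro x hx
    unfold entBound729
    rw [le_div_iff₀ hv2]
    calc Valued.v x * Valued.v (2 : k) ≤ offBound729 γ * 1 := mul_le_mul' hx val_two_le_one729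
      _ = offBound729 γ := mul_one _
  have htr' : Valued.v g.trace ≤ offBound729 γ := htr.trans (one_le_offBound729 γ)
  have b00 : Valued.v (g 0 0) ≤ entBound729 γ := by
    unfold entBound729
    rw [le_div_iff₀ hv2, ← map_mul]
    have e : g 0 0 * 2 = g.trace + (g 0 0 - g 1 1) := by rw [hgt]; ring
    rw [e]
    exact (Valued.v.map_add _ _).trans (max_le htr' bd)
  have b11 : Valued.v (g 1 1) ≤ entBound729 γ := by
    unfold entBound729
    rw [le_div_iff₀ hv2, ← map_mul]
    have e : g 1 1 * 2 = g.trace - (g 0 0 - g 1 1) := by rw [hgt]; ring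
    rw [e]
    exact (Valued.v.map_sub _ _).trans (max_le htr' bd)
  fin_cases i <;> fin_cases j
  · exact b00
  · exact hoff _ b01
  · exact hoff _ b10
  · exact b11

/-! ## 4. Compactness -/

theorem isCompact_bigBall729 {q : ℕ} (h : IsLocalField k q) (B : ℕ) :
    IsCompact {x : k | Valued.v x ≤ WithZero.exp (B : ℤ)} := by
  obtain ⟨ϖ, hϖ⟩ := h.unif
  have hϖ0 : ϖ ≠ 0 := by
    intro h0
    rw [h0, map_zero] at hϖ
    exact WithZero.exp_ne_zero hϖ.symm
  have hmul : (WithZero.exp (B : ℤ) : Γ₀) * WithZero.exp (-(B : ℤ)) = 1 := by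
    rw [← WithZero.exp_add, add_neg_cancel, WithZero.exp_zero]
  have e : {x : k | Valued.v x ≤ WithZero.exp (B : ℤ)}
      = (fun x : k => x / ϖ ^ B) '' {x : k | Valued.v x ≤ 1} := by
    ext x
    constructor
    · intro hx
      refine ⟨x * ϖ ^ B, ?_, ?_⟩
      · show Valued.v (x * ϖ ^ B) ≤ 1
        rw [map_mul, H420.val_pow_unif hϖ, ← hmul]
        exact mul_le_mul' hx le_rfl
      · show x * ϖ ^ B / ϖ ^ B = x
        field_simp
    · rintro ⟨y, hy, rfl⟩
      show Valued.v (y / ϖ ^ B) ≤ WithZero.exp (B : ℤ)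
      rw [map_div₀, H420.val_pow_unif hϖ, div_le_iff₀ (zero_lt_iff.2 WithZero.exp_ne_zero), hmul]
      exact hy
  rw [e]
  exact (H420.isCompact_unitBall h).image (by fun_prop)

/-- Matrices with entries of valuation `≤ exp B`. -/
def matBig729 (k : Type) [Field k] [Valued k Γ₀] (B : ℕ) : Set (Matrix (Fin 2) (Fin 2) k) :=
  {M | ∀ i j, Valued.v (M i j) ≤ WithZero.exp (B : ℤ)}

theorem isCompact_matBig729 {q : ℕ} (h : IsLocalField k q) (B : ℕ) :
    IsCompact (matBig729 k B) := by
  have e : matBig729 k B = Set.pi Set.univ fun _ : Fin 2 => Set.pi Set.univ fun _ : Fin 2 =>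
      {x : k | Valued.v x ≤ WithZero.exp (B : ℤ)} := by
    ext M
    constructor
    · intro hM i _ j _
      exact hM i j
    · intro hM i j
      exact hM i (Set.mem_univ i) j (Set.mem_univ j)
  rw [e]
  exact isCompact_univ_pi fun _ => isCompact_univ_pi fun _ => isCompact_bigBall729 h B

theorem exists_nat_bound729 (b : Γ₀) : ∃ B : ℕ, b ≤ WithZero.exp (B : ℤ) := by
  rcases eq_or_ne b 0 with rfl | hb
  · exact ⟨0, zero_le⟩
  · refine ⟨(WithZero.log b).toNat, ?_⟩
    conv_lhs => rw [← WithZero.exp_log hb]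
    rw [WithZero.exp_le_exp]
    exact Int.self_le_toNat _

theorem isOpen_val_le_one729 {q : ℕ} (h : IsLocalField k q) :
    IsOpen {x : k | Valued.v x ≤ 1} := by
  obtain ⟨ϖ, hϖ⟩ := h.unif
  have := H420.isOpen_cball hϖ (0 : k) 0
  simpa using this

theorem isClosed_val_le_one729 {q : ℕ} (h : IsLocalField k q) :
    IsClosed {x : k | Valued.v x ≤ 1} := by
  obtain ⟨ϖ, hϖ⟩ := h.unif
  have := H420.isClosed_cball hϖ (0 : k) 0
  simpa using this

theorem val_eq_one_set729 :
    {x : k | Valued.v x = 1}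
      = {x : k | Valued.v x ≤ 1} ∩ {x : k | Valued.v (x - 0) ≤ WithZero.exp (-((1 : ℕ) : ℤ))}ᶜ := by
  ext x
  simp only [Set.mem_ofPred_eq, Set.mem_inter_iff, Set.mem_compl_iff, sub_zero, not_le]
  have hlt : Valued.v x < 1 ↔ Valued.v x ≤ WithZero.exp (-((1 : ℕ) : ℤ)) := by
    have := H420.lt_exp_iff_le (Valued.v x) 0
    rw [WithZero.exp_zero] at this
    rw [this]
    norm_num
  constructor
  · intro hx
    refine ⟨hx.le, ?_⟩
    rw [← not_le, ← hlt, hx]
    exact lt_irrefl _
  · rintro ⟨h1, h2⟩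
    rw [← not_le, ← hlt, not_lt] at h2
    exact le_antisymm h1 h2

theorem isOpen_val_eq_one729 {q : ℕ} (h : IsLocalField k q) :
    IsOpen {x : k | Valued.v x = 1} := by
  obtain ⟨ϖ, hϖ⟩ := h.unif
  rw [val_eq_one_set729]
  exact (isOpen_val_le_one729 h).inter (H420.isClosed_cball hϖ (0 : k) 1).isOpen_compl

theorem isClosed_val_eq_one729 {q : ℕ} (h : IsLocalField k q) :
    IsClosed {x : k | Valued.v x = 1} := by
  obtain ⟨ϖ, hϖ⟩ := h.unif
  rw [val_eq_one_set729]
  exact (isClosed_val_le_one729 h).inter (H420.isOpen_cball hϖ (0 : k) 1).isClosed_compl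

theorem continuous_trace_GL729 :
    Continuous fun g : GL (Fin 2) k => (g : Matrix (Fin 2) (Fin 2) k).trace :=
  Units.continuous_val.matrix_trace

theorem continuous_det_GL729 :
    Continuous fun g : GL (Fin 2) k => (g : Matrix (Fin 2) (Fin 2) k).det :=
  Units.continuous_val.matrix_det

/-- the entries of the inverse of an element with unit determinant -/
theorem inv_entry_le729 (g : GL (Fin 2) k) (b : Γ₀)
    (hdet : Valued.v (g : Matrix (Fin 2) (Fin 2) k).det = 1)
    (hg : ∀ i j, Valued.v ((g : Matrix (Fin 2) (Fin 2) k) i j) ≤ b) (i j : Fin 2) :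
    Valued.v (((g⁻¹ : GL (Fin 2) k) : Matrix (Fin 2) (Fin 2) k) i j) ≤ b := by
  rw [Matrix.coe_units_inv, Matrix.inv_def, Matrix.smul_apply, smul_eq_mul, map_mul,
    Ring.inverse_eq_inv', map_inv₀, hdet, inv_one, one_mul, Matrix.adjugate_fin_two]
  fin_cases i <;> fin_cases j <;> simp [hg]

/-- **The compact part of the centraliser of a regular element is compact.** -/
theorem isCompact_cent729 {q : ℕ} (h : IsLocalField k q) (γ : GL (Fin 2) k) (hγ : IsReg γ) :
    IsCompact {g : GL (Fin 2) k | g * γ = γ * g ∧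
      Valued.v (g : Matrix (Fin 2) (Fin 2) k).trace ≤ 1 ∧
      Valued.v (g : Matrix (Fin 2) (Fin 2) k).det = 1} := by
  haveI : CharZero k := h.char0
  have hD : (γ : Matrix (Fin 2) (Fin 2) k).trace ^ 2 - 4 * (γ : Matrix (Fin 2) (Fin 2) k).det
      ≠ 0 := IsUnit.ne_zero hγ
  obtain ⟨B, hB⟩ := exists_nat_bound729 (entBound729 (γ : Matrix (Fin 2) (Fin 2) k))
  have hbig : IsCompact (Units.embedProduct (Matrix (Fin 2) (Fin 2) k) ⁻¹'
      ((matBig729 k B) ×ˢ (MulOpposite.opHomeomorph.symm ⁻¹' (matBig729 k B)))) := by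
    refine Units.isClosedEmbedding_embedProduct.isCompact_preimage ?_
    exact (isCompact_matBig729 h B).prod
      ((MulOpposite.opHomeomorph.symm.isCompact_preimage).2 (isCompact_matBig729 h B))
  refine hbig.of_isClosed_subset ?_ ?_
  · have h1 : IsClosed {g : GL (Fin 2) k | g * γ = γ * g} :=
      isClosed_eq (continuous_id.mul continuous_const) (continuous_const.mul continuous_id)
    have h2 : IsClosed {g : GL (Fin 2) k | Valued.v (g : Matrix (Fin 2) (Fin 2) k).trace ≤ 1} :=
      (isClosed_val_le_one729 h).preimage continuous_trace_GL729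
    have h3 : IsClosed {g : GL (Fin 2) k | Valued.v (g : Matrix (Fin 2) (Fin 2) k).det = 1} :=
      (isClosed_val_eq_one729 h).preimage continuous_det_GL729
    exact h1.inter (h2.inter h3)
  · rintro g ⟨hc, htr, hdet⟩
    have hc' : (g : Matrix (Fin 2) (Fin 2) k) * (γ : Matrix (Fin 2) (Fin 2) k)
        = (γ : Matrix (Fin 2) (Fin 2) k) * (g : Matrix (Fin 2) (Fin 2) k) := by
      rw [← Units.val_mul, ← Units.val_mul, hc]
    have hent : ∀ i j, Valued.v ((g : Matrix (Fin 2) (Fin 2) k) i j) ≤ WithZero.exp (B : ℤ) :=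
      fun i j => (entry_le729 _ _ hD hc' htr hdet.le i j).trans hB
    refine ⟨hent, ?_⟩
    show ∀ i j, Valued.v (((g⁻¹ : GL (Fin 2) k) : Matrix (Fin 2) (Fin 2) k) i j)
      ≤ WithZero.exp (B : ℤ)
    exact inv_entry_le729 g _ hdet hent

/-! ## 5. The two halves of the leaf -/

theorem exists_locHaar729 {q : ℕ} (h : IsLocalField k q) (n : ℕ) :
    ∃ μ : @Measure (GL (Fin 2) k) (borel _),
      @Measure.IsHaarMeasure _ _ _ (borel _) μ ∧ μ {g | InU n g} = 1 := by
  obtain ⟨ϖ, hϖ⟩ := h.unif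
  exact exists_haar_eq_one729 _ (H420.isCompact_subU h n) (H420.isOpen_subU hϖ n)
    (H420.subU n).one_mem

theorem exists_locTor729 {q : ℕ} (h : IsLocalField k q) (l : ℕ) (s : k ≃+* k)
    (hs : ∀ y : k, Valued.v (s y) = Valued.v y) (hl : ∀ y : k, (s ^ l) y = y)
    (δ : GL (Fin 2) k) (hreg : IsReg (twNorm s l δ)) :
    ∃ μT : @Measure (twCentSub (glAut s) δ) (borel _),
      @Measure.IsHaarMeasure _ _ _ (borel _) μT ∧
      μT {t | Valued.v ((t : GL (Fin 2) k) : Matrix (Fin 2) (Fin 2) k).trace ≤ 1 ∧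
        Valued.v ((t : GL (Fin 2) k) : Matrix (Fin 2) (Fin 2) k).det = 1} = 1 := by
  have hcl : IsClosed ((twCentSub (glAut s) δ : Subgroup (GL (Fin 2) k)) : Set (GL (Fin 2) k)) := by
    have hcont : Continuous fun x : GL (Fin 2) k => x⁻¹ * δ * glAut s x :=
      (continuous_inv.mul continuous_const).mul (H420.continuous_glAut h s hs)
    exact isClosed_eq hcont continuous_const
  refine exists_haar_eq_one729 _ ?_ ?_ ?_
  · have hemb : Topology.IsClosedEmbedding
        (Subtype.val : (twCentSub (glAut s) δ) → GL (Fin 2) k) :=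
      hcl.isClosedEmbedding_subtypeVal
    have hc := hemb.isCompact_preimage (isCompact_cent729 h (twNorm s l δ) hreg)
    have e : {t : twCentSub (glAut s) δ |
        Valued.v ((t : GL (Fin 2) k) : Matrix (Fin 2) (Fin 2) k).trace ≤ 1 ∧
        Valued.v ((t : GL (Fin 2) k) : Matrix (Fin 2) (Fin 2) k).det = 1}
        = Subtype.val ⁻¹' {g : GL (Fin 2) k | g * twNorm s l δ = twNorm s l δ * g ∧
          Valued.v (g : Matrix (Fin 2) (Fin 2) k).trace ≤ 1 ∧
          Valued.v (g : Matrix (Fin 2) (Fin 2) k).det = 1} := by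
      ext t
      constructor
      · rintro ⟨h1, h2⟩
        exact ⟨H846.twCent_comm_norm846 s l hl δ t t.2, h1, h2⟩
      · rintro ⟨-, h1, h2⟩
        exact ⟨h1, h2⟩
    rw [e]
    exact hc
  · have h2 : IsOpen {g : GL (Fin 2) k | Valued.v (g : Matrix (Fin 2) (Fin 2) k).trace ≤ 1} :=
      (isOpen_val_le_one729 h).preimage continuous_trace_GL729
    have h3 : IsOpen {g : GL (Fin 2) k | Valued.v (g : Matrix (Fin 2) (Fin 2) k).det = 1} :=
      (isOpen_val_eq_one729 h).preimage continuous_det_GL729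
    exact (h2.inter h3).preimage continuous_subtype_val
  · show Valued.v (((1 : twCentSub (glAut s) δ) : GL (Fin 2) k) :
        Matrix (Fin 2) (Fin 2) k).trace ≤ 1 ∧
      Valued.v (((1 : twCentSub (glAut s) δ) : GL (Fin 2) k) :
        Matrix (Fin 2) (Fin 2) k).det = 1
    rw [Subgroup.coe_one, Units.val_one, Matrix.trace_fin_two, Matrix.det_one, map_one]
    refine ⟨?_, rfl⟩
    simp only [Matrix.one_apply_eq]
    exact (Valued.v.map_add _ _).trans (by simp)

end Field

end Fermat.Agent.LT.T7.LocMeas729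

end
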