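import Mathlib
import Fermat.Agent.LT.T7.H305.MatchCut
import Fermat.Agent.LT.T7.H729.LocMeasCore

/-!
# Row LT, tower T7, leaf T7.L2.1.C2.7.1 `H305.LocMeasC305` (helper729)

OFF-MAIN.  PROVED, UNCONDITIONAL (no hole, nothing assumed).  ADDITIVE (new names only).
Spec: `LT/T7/H305/MatchCut.lean` (helper305@56ddcdc02, sha256 0f302b81), byte-identical copy.

    locMeasC729 : H305.LocMeasC305

Route (docstring of the leaf): `GL₂(k)` is a topological group and `U(n)` is a compact open
subgroup (helper420), so the Haar measure normalised on `U(n)` exists; the twisted centraliser
is a closed subgroup, its elements commute with the norm `N δ` (helper846), and the elements of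
the centraliser of the regular element `N δ` with integral trace and unit determinant form a
compact set (`isCompact_cent729`: the entries are bounded), open in the twisted centraliser.
-/

set_option autoImplicit false

open AutomorphicForm IsDedekindDomain NumberField MeasureTheory

noncomputable section

namespace Fermat.Agent.LT.T7.LocMeas729

open Fermat.Agent.LT.T7

/-- **LEAF T7.L2.1.C2.7.1 `H305.LocMeasC305`**: normalised local Haar measures exist. -/
theorem locMeasC729 : H305.LocMeasC305 := by
  intro k _ _ q h
  refine ⟨fun n => exists_locHaar729 h n, ?_⟩
  intro l s hs _ hl δ hreg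
  exact exists_locTor729 h l s hs hl δ hreg

end Fermat.Agent.LT.T7.LocMeas729

end
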