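import Mathlib
import Fermat.Agent.LT.T7.H751.FactDownQSpec

/-!
# Row LT, tower T7, leaf T7.L2Q.1.H1.5.7.9 `H751.HaarSigmaRC751` (helper729, SPARE of row 2703)

OFF-MAIN.  PROVED, UNCONDITIONAL (no hole, nothing assumed).  ADDITIVE (new names only).
Spec: `LT/T7/H751/FactDownQSpec.lean` (helper751@9f5415940, sha256 aa280353), byte-identical
copy.  Mathlib only besides the Spec.

    haarSigmaRC729 : H751.HaarSigmaRC751

Route (docstring of the leaf): `GL₂(ℝ)` is `σ`-compact (closed in `M₂ × M₂ᵐᵒᵖ`), a Haar measure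
is finite on compact sets; a closed subgroup is `σ`-compact and the inclusion is a measurable
embedding.
-/

set_option autoImplicit false
set_option linter.style.haveILetI false

open AutomorphicForm IsDedekindDomain NumberField MeasureTheory

noncomputable section

namespace Fermat.Agent.LT.T7.HaarSigmaR729

open Fermat.Agent.LT.T6 Fermat.Agent.LT.T7 Fermat.Agent.LT.T7.H305

/-- A Haar measure (Borel) of a `σ`-compact group is `σ`-finite. -/
theorem sigmaFinite_haarR729 {G : Type} [Group G] [TopologicalSpace G] [IsTopologicalGroup G]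
    [SigmaCompactSpace G] (μ : @Measure G (borel G))
    (hμ : @Measure.IsHaarMeasure G _ _ (borel G) μ) : @SigmaFinite G (borel G) μ := by
  letI : MeasurableSpace G := borel G
  haveI : BorelSpace G := ⟨rfl⟩
  haveI := hμ
  infer_instance

/-- The image in the group of a Haar measure of a closed subgroup of a `σ`-compact group is
`σ`-finite. -/
theorem sigmaFinite_map_valR729 {G : Type} [Group G] [TopologicalSpace G]
    [IsTopologicalGroup G] [SigmaCompactSpace G] (T : Subgroup G) (hT : IsClosed (T : Set G))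
    (μT : @Measure T (borel T)) (hμ : @Measure.IsHaarMeasure T _ _ (borel T) μT) :
    @SigmaFinite G (borel G) (@Measure.map T G (borel T) (borel G) Subtype.val μT) := by
  letI : MeasurableSpace G := borel G
  haveI : BorelSpace G := ⟨rfl⟩
  letI : MeasurableSpace T := borel T
  haveI : BorelSpace T := ⟨rfl⟩
  haveI : SigmaCompactSpace T := hT.isClosedEmbedding_subtypeVal.sigmaCompactSpace
  haveI := hμ
  exact (hT.isClosedEmbedding_subtypeVal.measurableEmbedding).sigmaFinite_map

theorem sigmaCompact_GL2R729 : SigmaCompactSpace (GL (Fin 2) ℝ) := by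
  haveI : SigmaCompactSpace (Matrix (Fin 2) (Fin 2) ℝ) :=
    inferInstanceAs (SigmaCompactSpace (Fin 2 → Fin 2 → ℝ))
  haveI : SigmaCompactSpace (Matrix (Fin 2) (Fin 2) ℝ)ᵐᵒᵖ :=
    MulOpposite.opHomeomorph.symm.isClosedEmbedding.sigmaCompactSpace
  exact Units.isClosedEmbedding_embedProduct.sigmaCompactSpace

theorem isClosed_centR729 {H : Type} [Group H] [TopologicalSpace H] [IsTopologicalGroup H]
    [T2Space H] (γ : H) : IsClosed ((cent305 γ : Subgroup H) : Set H) := by
  have h : ((cent305 γ : Subgroup H) : Set H) = {x : H | x⁻¹ * γ * x = γ} := rfl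
  rw [h]
  exact isClosed_eq ((continuous_inv.mul continuous_const).mul continuous_id) continuous_const

/-- **LEAF T7.L2Q.1.H1.5.7.9 `H751.HaarSigmaRC751`.** -/
theorem haarSigmaRC729 : H751.HaarSigmaRC751 := by
  haveI := sigmaCompact_GL2R729
  exact ⟨fun μ hμ => sigmaFinite_haarR729 μ hμ,
    fun γ₀ μT hμT => sigmaFinite_map_valR729 _ (isClosed_centR729 γ₀) μT hμT⟩

end Fermat.Agent.LT.T7.HaarSigmaR729

end
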