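import Mathlib

/-!
# Row LT, tower T7, leaf T7.L2.1.C2.4.2 `H943.IotaInfC943` (helper729): the core (Mathlib only)

OFF-MAIN.  Proved lemma only.  ADDITIVE (new names only).

If the infinite place `w` of `L` lies over the place `v` of `K`, the composite of the completion
map `K_v → L_w` with the extension embedding of `w` is the extension embedding of `v` or its
complex conjugate.
-/

set_option autoImplicit false

open NumberField NumberField.InfinitePlace NumberField.InfinitePlace.Completion
open NumberField.ComplexEmbedding
open scoped ComplexConjugate

noncomputable section

namespace Fermat.Agent.LT.T7.IotaInf729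

open scoped NumberField.LiesOver in
theorem extEmb_completionMap729 {K L : Type*} [Field K] [Field L] [Algebra K L]
    (w : InfinitePlace L) (v : InfinitePlace K) [w.LiesOver v] :
    (∀ y : v.Completion,
        extensionEmbedding w (NumberField.LiesOver.completionMap (v := v) (w := w) y)
          = extensionEmbedding v y) ∨
      (∀ y : v.Completion,
        extensionEmbedding w (NumberField.LiesOver.completionMap (v := v) (w := w) y)
          = conj (extensionEmbedding v y)) := by
  cases InfinitePlace.LiesOver.embedding_comp_eq_or_conjugate_embedding_comp_eq w v with
  | inl hl =>
    left
    have : ComplexEmbedding.LiesOver w.embedding v.embedding := ⟨hl⟩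
    have h := (liesOver_extensionEmbedding w v).over
    intro y
    exact RingHom.congr_fun h y
  | inr hr =>
    right
    have : ComplexEmbedding.LiesOver (conjugate w.embedding) v.embedding := ⟨hr⟩
    have h := (liesOver_conjugate_extensionEmbedding w v).over
    intro y
    have h1 : conj (extensionEmbedding w (NumberField.LiesOver.completionMap (v := v) (w := w) y))
        = extensionEmbedding v y := RingHom.congr_fun h y
    rw [← h1, Complex.conj_conj]

end Fermat.Agent.LT.T7.IotaInf729

end
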