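import Mathlib
import Fermat.Agent.LT.T7.H943.IotaSpec
import Fermat.Agent.LT.T7.H729.IotaInfCore

/-!
# Row LT, tower T7, leaf T7.L2.1.C2.4.2 `H943.IotaInfC943` (helper729)

OFF-MAIN.  PROVED, UNCONDITIONAL (no hole, nothing assumed).  ADDITIVE (new names only).
Spec: `LT/T7/H943/IotaSpec.lean` (helper943@64e398e16, sha256 7da0d68c), byte-identical copy.

    iotaInfC729 K K' : H943.IotaInfC943 K K'

Route: `T5.infHom w' (ι x) = extensionEmbedding w' (completionMap (x.1 v))`,
`v = w'.comap (algebraMap K K')` (definitional), then the Mathlib-only core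
`extEmb_completionMap729` (Mathlib `liesOver_extensionEmbedding`,
`liesOver_conjugate_extensionEmbedding`).
-/

set_option autoImplicit false

open AutomorphicForm IsDedekindDomain NumberField MeasureTheory
open scoped ComplexConjugate

noncomputable section

namespace Fermat.Agent.LT.T7.IotaInf729

open Fermat.Agent.LT.H556 Fermat.Agent.LT.H556.A0 Fermat.Agent.LT.T7

/-- **LEAF T7.L2.1.C2.4.2 `H943.IotaInfC943`** (the field `inf` of the base change of adeles). -/
theorem iotaInfC729 (K K' : Type) [Field K] [NumberField K] [Field K'] [NumberField K']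
    [Algebra K K'] : H943.IotaInfC943 K K' := by
  intro w'
  have : w'.LiesOver (w'.comap (algebraMap K K')) :=
    Fermat.Agent.LT.A2.H743.infUnder_liesOver743 K K' w'
  rcases extEmb_completionMap729 w' (w'.comap (algebraMap K K')) with h | h
  · left
    intro x
    exact h (x.1 (w'.comap (algebraMap K K')))
  · right
    intro x
    exact h (x.1 (w'.comap (algebraMap K K')))

end Fermat.Agent.LT.T7.IotaInf729

end
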