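import Mathlib

/-!
# Row LT, tower T7, leaf T7.14.6a-F.6.1 `HaarLogC216` (helper729): core, OFF-MAIN.  Mathlib only.

`haarLog_core729`: a non-zero measure `m` on `ℝ` with `m (-∞, 0] = 0`, invariant under all
dilations `t ↦ s t` (`s > 0`) and finite on `[1, 2]`, is `V₀ · dt/t` with `V₀ > 0`.

Proof: `m₂ = log_* m` is translation invariant and locally finite, hence `c · volume`;
`m = exp_* m₂`, and `exp_* volume = dt/t` (change of variables).
-/

set_option autoImplicit false

open MeasureTheory Filter Topology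
open scoped ENNReal NNReal

noncomputable section

namespace Fermat.Agent.LT.T7.H729

/-- The measure `dt / t` on `(0, ∞)`. -/
def dtt729 : Measure ℝ :=
  (volume.restrict (Set.Ioi (0 : ℝ))).withDensity fun t => ENNReal.ofReal t⁻¹

/-- `exp_* volume = dt/t`. -/
theorem map_exp_volume729 : Measure.map Real.exp (volume : Measure ℝ) = dtt729 := by
  ext A hA
  rw [Measure.map_apply Real.measurable_exp hA]
  unfold dtt729
  rw [withDensity_apply _ hA, Measure.restrict_restrict hA]
  have himg : Real.exp '' (Real.exp ⁻¹' A) = A ∩ Set.Ioi 0 := by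
    ext t
    constructor
    · rintro ⟨u, hu, rfl⟩
      exact ⟨hu, Real.exp_pos u⟩
    · rintro ⟨ht, ht0⟩
      exact ⟨Real.log t, by
        show Real.exp (Real.log t) ∈ A
        rw [Real.exp_log ht0]
        exact ht, Real.exp_log ht0⟩
  have hms : MeasurableSet (Real.exp ⁻¹' A) := Real.measurable_exp hA
  have h := lintegral_image_eq_lintegral_abs_deriv_mul hms
    (fun x _ => (Real.hasDerivAt_exp x).hasDerivWithinAt) Real.exp_injective.injOn
    (fun t => ENNReal.ofReal t⁻¹)
  rw [himg] at h
  rw [h]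
  have h1 : ∀ x : ℝ, ENNReal.ofReal |Real.exp x| * ENNReal.ofReal (Real.exp x)⁻¹ = 1 := by
    intro x
    rw [abs_of_pos (Real.exp_pos x), ← ENNReal.ofReal_mul (Real.exp_pos x).le,
      mul_inv_cancel₀ (Real.exp_ne_zero x), ENNReal.ofReal_one]
  simp only [h1]
  rw [lintegral_one, Measure.restrict_apply MeasurableSet.univ, Set.univ_inter]

/-- **Core of `HaarLogC216`.** -/
theorem haarLog_core729 (m : Measure ℝ) (h0 : m (Set.Iic 0) = 0)
    (hinv : ∀ s : ℝ, 0 < s → Measure.map (fun t : ℝ => s * t) m = m)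
    (hfin : m (Set.Icc 1 2) < ⊤) (hne : m ≠ 0) :
    ∃ V₀ : ℝ, 0 < V₀ ∧ m = ENNReal.ofReal V₀ • dtt729 := by
  -- `m` is carried by `(0, ∞)`
  have hpos : ∀ᵐ t ∂m, 0 < t := by
    have := measure_eq_zero_iff_ae_notMem.1 h0
    filter_upwards [this] with t ht
    exact not_le.1 ht
  set m₂ : Measure ℝ := Measure.map Real.log m with hm₂
  -- translation invariance
  have htr : ∀ a : ℝ, Measure.map (fun u : ℝ => a + u) m₂ = m₂ := by
    intro a
    have hmeas1 : Measurable fun u : ℝ => a + u := measurable_const_add a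
    have hmeas2 : Measurable fun t : ℝ => Real.exp a * t := measurable_const_mul _
    rw [hm₂, Measure.map_map hmeas1 Real.measurable_log]
    have hae : ((fun u : ℝ => a + u) ∘ Real.log)
        =ᵐ[m] (Real.log ∘ fun t : ℝ => Real.exp a * t) := by
      filter_upwards [hpos] with t ht
      show a + Real.log t = Real.log (Real.exp a * t)
      rw [Real.log_mul (Real.exp_ne_zero a) ht.ne', Real.log_exp]
    rw [Measure.map_congr hae, ← Measure.map_map Real.measurable_log hmeas2,
      hinv _ (Real.exp_pos a)]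
  have hI : m₂.IsAddLeftInvariant := ⟨htr⟩
  -- finiteness on `[0, log 2]`
  have hL : 0 < Real.log 2 := Real.log_pos (by norm_num)
  have hfin0 : m₂ (Set.Icc 0 (Real.log 2)) < ⊤ := by
    rw [hm₂, Measure.map_apply Real.measurable_log measurableSet_Icc]
    have hsub : Real.log ⁻¹' Set.Icc 0 (Real.log 2) ⊆ Set.Iic 0 ∪ Set.Icc 1 2 := by
      intro t ht
      by_cases ht0 : t ≤ 0
      · exact Or.inl ht0
      · right
        have ht0' : 0 < t := not_le.1 ht0
        obtain ⟨h1, h2⟩ := ht
        exact ⟨(Real.log_nonneg_iff ht0').1 h1,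
          (Real.log_le_log_iff ht0' (by norm_num)).1 h2⟩
    calc m (Real.log ⁻¹' Set.Icc 0 (Real.log 2))
        ≤ m (Set.Iic 0 ∪ Set.Icc 1 2) := measure_mono hsub
      _ ≤ m (Set.Iic 0) + m (Set.Icc 1 2) := measure_union_le _ _
      _ < ⊤ := by
          rw [h0, zero_add]
          exact hfin
  -- local finiteness
  have hLF : IsLocallyFiniteMeasure m₂ := by
    refine ⟨fun x => ⟨Set.Icc (x - Real.log 2 / 2) (x + Real.log 2 / 2), ?_, ?_⟩⟩
    · exact Icc_mem_nhds (by linarith) (by linarith)
    · have h1 := htr (x - Real.log 2 / 2)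
      have h2 : m₂ (Set.Icc (x - Real.log 2 / 2) (x + Real.log 2 / 2))
          = m₂ (Set.Icc 0 (Real.log 2)) := by
        have h3 : (Measure.map (fun u : ℝ => (-(x - Real.log 2 / 2)) + u) m₂)
            (Set.Icc 0 (Real.log 2)) = m₂ (Set.Icc 0 (Real.log 2)) := by
          rw [htr]
        rw [Measure.map_apply (measurable_const_add _) measurableSet_Icc,
          Set.preimage_const_add_Icc] at h3
        rw [← h3]
        congr 1
        congr 1 <;> ring
      rw [h2]
      exact hfin0
  -- uniqueness of the Haar measure of `ℝ`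
  set c : ℝ≥0 := Measure.addHaarScalarFactor m₂ volume with hc
  have hm₂c : m₂ = c • (volume : Measure ℝ) := Measure.isAddLeftInvariant_eq_smul m₂ volume
  -- back to `m`
  have hback : m = Measure.map Real.exp m₂ := by
    rw [hm₂, Measure.map_map Real.measurable_exp Real.measurable_log]
    have hae : (Real.exp ∘ Real.log) =ᵐ[m] id := by
      filter_upwards [hpos] with t ht
      exact Real.exp_log ht
    rw [Measure.map_congr hae, Measure.map_id]
  have hm : m = c • dtt729 := by
    rw [hback, hm₂c, Measure.map_smul, map_exp_volume729]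
  have hc0 : c ≠ 0 := by
    intro h
    apply hne
    rw [hm, h, zero_smul]
  refine ⟨(c : ℝ), NNReal.coe_pos.2 (pos_iff_ne_zero.2 hc0), ?_⟩
  rw [ENNReal.ofReal_coe_nnreal]
  exact hm

end Fermat.Agent.LT.T7.H729

end
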