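import Fermat.Agent.LT.T7.H216.BoxSpec
import Fermat.Agent.LT.T7.H729.HaarLogCore

/-!
# Row LT, tower T7, leaf T7.14.6a-F.6.1 `HaarLogC216` (helper729), OFF-MAIN

`haarLogC729 : H216.HaarLogC216` VERBATIM (frozen Prop of
`Fermat/Agent/LT/T7/H216/BoxSpec.lean`, sha256 760ee146, byte-identical copy); the proof is the
Mathlib-only core `haarLog_core729` of `H729/HaarLogCore.lean` (`dtt729 = H216.dtt216` by `rfl`).
-/

set_option autoImplicit false

namespace Fermat.Agent.LT.T7.H729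

theorem dtt729_eq216 : dtt729 = Fermat.Agent.LT.T7.H216.dtt216 := rfl

/-- **B.1 `HaarLogC216`.** -/
theorem haarLogC729 : Fermat.Agent.LT.T7.H216.HaarLogC216 := by
  intro m h0 hinv hfin hne
  obtain ⟨V₀, hV, hm⟩ := haarLog_core729 m h0 hinv hfin hne
  exact ⟨V₀, hV, by rw [hm, dtt729_eq216]⟩

end Fermat.Agent.LT.T7.H729
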