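import Mathlib
import Fermat.Agent.LT.T7.H305.MatchCut
import Fermat.Agent.LT.T7.H584.Cutoff
import Fermat.Agent.LT.T7.H729.LocMeasCore

/-!
# Row LT, tower T7, leaf T7.L2.1.C2.7.2 `H305.LocCutC305` (helper729, SPARE of row 2566)

OFF-MAIN.  PROVED, UNCONDITIONAL (no hole, nothing assumed).  ADDITIVE (new names only).
Spec: `LT/T7/H305/MatchCut.lean` (helper305@56ddcdc02, sha256 0f302b81), byte-identical copy.

    locCutC729 : H305.LocCutC305

Route (docstring of the leaf): `exists_cutoff584` (helper584, `T7/H584/Cutoff.lean`, sha256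
cf7491c2); `GL₂(k)` is locally compact and `σ`-compact (helper420); the twisted centraliser is
closed, its elements commute with the regular element `N δ` (helper846 `twCent_comm_norm846`),
so it is commutative (`comm_of_comm_reg846`) and its Haar measure is right invariant.
-/

set_option autoImplicit false
set_option linter.style.haveILetI false

open AutomorphicForm IsDedekindDomain NumberField MeasureTheory

noncomputable section

namespace Fermat.Agent.LT.T7.LocMeas729

open Fermat.Agent.LT.T6 Fermat.Agent.LT.T7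

/-- **LEAF T7.L2.1.C2.7.2 `H305.LocCutC305`**: local continuous cut-off functions exist. -/
theorem locCutC729 : H305.LocCutC305 := by
  intro k _ _ q h l s hs _ hl δ hreg μT hμT
  haveI : LocallyCompactSpace (GL (Fin 2) k) := H420.locallyCompactSpace_GL h
  haveI : SigmaCompactSpace (GL (Fin 2) k) := H420.sigmaCompactSpace_GL h
  have hcl : IsClosed ((twCentSub (glAut s) δ : Subgroup (GL (Fin 2) k)) :
      Set (GL (Fin 2) k)) := by
    have hcont : Continuous fun x : GL (Fin 2) k => x⁻¹ * δ * glAut s x :=
      (continuous_inv.mul continuous_const).mul (H420.continuous_glAut h s hs)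
    exact isClosed_eq hcont continuous_const
  letI : MeasurableSpace (twCentSub (glAut s) δ) := borel _
  haveI : BorelSpace (twCentSub (glAut s) δ) := ⟨rfl⟩
  haveI := hμT
  have hD : ((twNorm s l δ : GL (Fin 2) k) : Matrix (Fin 2) (Fin 2) k).trace ^ 2
      - 4 * ((twNorm s l δ : GL (Fin 2) k) : Matrix (Fin 2) (Fin 2) k).det ≠ 0 :=
    IsUnit.ne_zero hreg
  have hcomm : ∀ a b : twCentSub (glAut s) δ, a * b = b * a := by
    intro a b
    apply Subtype.ext
    apply Units.ext
    show ((a : GL (Fin 2) k) : Matrix (Fin 2) (Fin 2) k) * ((b : GL (Fin 2) k) : Matrix _ _ k)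
      = ((b : GL (Fin 2) k) : Matrix (Fin 2) (Fin 2) k) * ((a : GL (Fin 2) k) : Matrix _ _ k)
    refine H846.comm_of_comm_reg846 _ _ _ hD ?_ ?_
    · rw [← Units.val_mul, ← Units.val_mul, H846.twCent_comm_norm846 s l hl δ a a.2]
    · rw [← Units.val_mul, ← Units.val_mul, H846.twCent_comm_norm846 s l hl δ b b.2]
  haveI : μT.IsMulRightInvariant := ⟨fun g => by
    have e : (fun t : twCentSub (glAut s) δ => t * g) = fun t => g * t := by
      funext t
      exact hcomm t g
    rw [e]
    exact map_mul_left_eq_self μT g⟩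
  obtain ⟨β, hβc, hβ0, -, hβ1⟩ := H584.exists_cutoff584 (twCentSub (glAut s) δ) μT hcl
  exact ⟨β, hβc, hβ0, hβ1⟩

end Fermat.Agent.LT.T7.LocMeas729

end
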