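import Mathlib

/-!
# Row LT, tower T7, leaf T7.L2.1.C0.a `MovedPlaceC644` (helper729): core, OFF-MAIN.  Mathlib only.

`movedPlace_core729`: a ring automorphism `σ ≠ 1` of a number field moves a prime ideal outside
any given finite set `T`.

Proof.  Let `α ∈ 𝒪` with `σ α ≠ α`, `M = ∏_{w ∈ T} N(w)`, `δ = M (σ α - α) ≠ 0` and
`β = M (α + t) + 1` with `t ∈ ℕ` large.  No `w ∈ T` contains `β`.  If `σ` fixes every prime
outside `T`, it fixes the ideal `(β)`, so `β ∣ σ β - β = δ` and `|N β| ≤ |N δ|`; but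
`|N β| = ∏_w |β|_w^{e_w}` and `|β|_w ≥ M t - |M α + 1|_w > |N δ|` for every infinite place `w`.
-/

set_option autoImplicit false

open IsDedekindDomain NumberField

noncomputable section

namespace Fermat.Agent.LT.T7.H729

/-- An automorphism `σ ≠ 1` moves an algebraic integer. -/
theorem exists_int_moved729 (K' : Type) [Field K'] [NumberField K'] (σ : K' ≃+* K')
    (hσ : ∃ x : K', σ x ≠ x) :
    ∃ α : 𝓞 K', NumberField.RingOfIntegers.mapRingEquiv σ α ≠ α := by
  by_contra hall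
  have hall' : ∀ a : 𝓞 K', NumberField.RingOfIntegers.mapRingEquiv σ a = a := fun a =>
    by_contra fun h => hall ⟨a, h⟩
  have hall'' : ∀ a : 𝓞 K', σ (a : K') = (a : K') := fun a =>
    congrArg (fun z : 𝓞 K' => (z : K')) (hall' a)
  obtain ⟨x, hx⟩ := hσ
  obtain ⟨a, b, _, rfl⟩ := IsFractionRing.div_surjective (A := 𝓞 K') x
  apply hx
  rw [map_div₀]
  exact congrArg₂ (· / ·) (hall'' a) (hall'' b)

/-- The lower bound at an infinite place. -/
theorem place_lower729 (K' : Type) [Field K'] [NumberField K'] (w : InfinitePlace K')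
    (γ : K') (n : ℕ) : (n : ℝ) - w γ ≤ w (γ + (n : K')) := by
  rw [← InfinitePlace.norm_embedding_eq w γ, ← InfinitePlace.norm_embedding_eq w (γ + (n : K')),
    map_add, map_natCast]
  have h1 : ‖((n : ℕ) : ℂ)‖ = (n : ℝ) := Complex.norm_natCast n
  have h2 : ‖((n : ℕ) : ℂ)‖ ≤ ‖w.embedding γ + (n : ℂ)‖ + ‖w.embedding γ‖ := by
    have e : ((n : ℕ) : ℂ) = (w.embedding γ + (n : ℂ)) - w.embedding γ := by ring
    calc ‖((n : ℕ) : ℂ)‖ = ‖(w.embedding γ + (n : ℂ)) - w.embedding γ‖ := by rw [← e]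
      _ ≤ ‖w.embedding γ + (n : ℂ)‖ + ‖w.embedding γ‖ := norm_sub_le _ _
  linarith

/-- If every infinite absolute value of `x` is at least `C ≥ 1`, then `|N x| ≥ C`. -/
theorem abs_norm_ge729 (K' : Type) [Field K'] [NumberField K'] (x : K') (C : ℝ) (hC : 1 ≤ C)
    (h : ∀ w : InfinitePlace K', C ≤ w x) : C ≤ ((|Algebra.norm ℚ x| : ℚ) : ℝ) := by
  classical
  rw [← InfinitePlace.prod_eq_abs_norm x]
  obtain ⟨w₀⟩ := (inferInstance : Nonempty (InfinitePlace K'))
  have h1 : ∏ w : InfinitePlace K', (if w = w₀ then C else 1)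
      ≤ ∏ w : InfinitePlace K', w x ^ InfinitePlace.mult w := by
    refine Finset.prod_le_prod (fun w _ => ?_) (fun w _ => ?_)
    · split_ifs
      · linarith
      · exact zero_le_one
    · have hw1 : 1 ≤ w x := hC.trans (h w)
      have hpow : w x ≤ w x ^ InfinitePlace.mult w :=
        le_self_pow₀ hw1 InfinitePlace.mult_ne_zero
      split_ifs
      · exact (h w).trans hpow
      · exact hw1.trans hpow
  rw [Finset.prod_ite_eq' Finset.univ w₀ (fun _ => C), if_pos (Finset.mem_univ _)] at h1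
  exact h1

/-- **Core of `MovedPlaceC644`.** -/
theorem movedPlace_core729 (K' : Type) [Field K'] [NumberField K'] (σ : K' ≃+* K')
    (hσ : ∃ x : K', σ x ≠ x) (T : Finset (HeightOneSpectrum (𝓞 K'))) :
    ∃ w : HeightOneSpectrum (𝓞 K'), w ∉ T ∧
      Ideal.map (NumberField.RingOfIntegers.mapRingEquiv σ) w.asIdeal ≠ w.asIdeal := by
  classical
  by_contra hcon
  have hfixT : ∀ w : HeightOneSpectrum (𝓞 K'), w ∉ T →
      Ideal.map (NumberField.RingOfIntegers.mapRingEquiv σ) w.asIdeal = w.asIdeal :=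
    fun w hw => by_contra fun h => hcon ⟨w, hw, h⟩
  set σ' := NumberField.RingOfIntegers.mapRingEquiv σ with hσ'
  obtain ⟨α, hα⟩ := exists_int_moved729 K' σ hσ
  -- the integer `M`
  set M : ℕ := ∏ w ∈ T, Ideal.absNorm w.asIdeal with hM
  have hM0 : M ≠ 0 :=
    Finset.prod_ne_zero_iff.2 fun w _ => fun h0 => w.ne_bot (Ideal.absNorm_eq_zero_iff.1 h0)
  have hM1 : (1 : ℝ) ≤ (M : ℝ) := by exact_mod_cast Nat.one_le_iff_ne_zero.2 hM0
  have hMw : ∀ w ∈ T, (M : 𝓞 K') ∈ w.asIdeal := by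
    intro w hw
    obtain ⟨k, hk⟩ : Ideal.absNorm w.asIdeal ∣ M := Finset.dvd_prod_of_mem _ hw
    rw [hk, Nat.cast_mul]
    exact w.asIdeal.mul_mem_right _ (Ideal.absNorm_mem _)
  -- `δ`
  set δ : 𝓞 K' := (M : 𝓞 K') * (σ' α - α) with hδ
  have hδ0 : δ ≠ 0 := mul_ne_zero (Nat.cast_ne_zero.2 hM0) (sub_ne_zero.2 hα)
  have hNδ0 : Algebra.norm ℤ δ ≠ 0 := (Algebra.norm_ne_zero_iff).2 hδ0
  -- the choice of `t`
  set γ : 𝓞 K' := (M : 𝓞 K') * α + 1 with hγ
  set B : ℝ := ∑ w : InfinitePlace K', w (γ : K') with hB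
  set C : ℝ := |((Algebra.norm ℤ δ : ℤ) : ℝ)| + 1 with hC
  have hC1 : 1 ≤ C := by
    have := abs_nonneg ((Algebra.norm ℤ δ : ℤ) : ℝ)
    linarith
  obtain ⟨t, ht⟩ := exists_nat_ge (B + C)
  set β : 𝓞 K' := (M : 𝓞 K') * (α + (t : 𝓞 K')) + 1 with hβ
  have hβγ : (β : K') = (γ : K') + ((M * t : ℕ) : K') := by
    rw [hβ, hγ]
    push_cast
    ring
  -- the lower bound
  have hlow : ∀ w : InfinitePlace K', C ≤ w (β : K') := by
    intro w
    rw [hβγ]
    refine le_trans ?_ (place_lower729 K' w (γ : K') (M * t))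
    have hwB : w (γ : K') ≤ B :=
      Finset.single_le_sum (f := fun w : InfinitePlace K' => w (γ : K'))
        (fun w' _ => apply_nonneg w' _) (Finset.mem_univ w)
    have hMt : (t : ℝ) ≤ ((M * t : ℕ) : ℝ) := by
      rw [Nat.cast_mul]
      have ht0 : (0 : ℝ) ≤ (t : ℝ) := Nat.cast_nonneg t
      nlinarith
    linarith
  have hNβ : C ≤ ((|Algebra.norm ℚ (β : K')| : ℚ) : ℝ) := abs_norm_ge729 K' _ C hC1 hlow
  have hβ0 : β ≠ 0 := by
    intro h0
    obtain ⟨w₀⟩ := (inferInstance : Nonempty (InfinitePlace K'))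
    have := hlow w₀
    rw [h0] at this
    simp only [map_zero] at this
    linarith
  -- no `w ∈ T` contains `β`
  have hβw : ∀ w ∈ T, β ∉ w.asIdeal := by
    intro w hw hmem
    have h1 : (1 : 𝓞 K') ∈ w.asIdeal := by
      have h2 : (M : 𝓞 K') * (α + (t : 𝓞 K')) ∈ w.asIdeal :=
        w.asIdeal.mul_mem_right _ (hMw w hw)
      have h3 := w.asIdeal.sub_mem hmem h2
      rwa [hβ, add_sub_cancel_left] at h3
    exact w.isPrime.ne_top ((Ideal.eq_top_iff_one _).2 h1)
  -- `σ` fixes the ideal `(β)`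
  set I : Ideal (𝓞 K') := Ideal.span {β} with hI
  have hI0 : I ≠ ⊥ := by
    rw [hI, Ne, Ideal.span_singleton_eq_bot]
    exact hβ0
  have hfix : ∀ P ∈ UniqueFactorizationMonoid.normalizedFactors I, Ideal.map σ' P = P := by
    intro P hP
    have hprime : Prime P := UniqueFactorizationMonoid.prime_of_normalized_factor P hP
    have hle : I ≤ P :=
      Ideal.le_of_dvd (UniqueFactorizationMonoid.dvd_of_mem_normalizedFactors hP)
    set w : HeightOneSpectrum (𝓞 K') := ⟨P, Ideal.isPrime_of_prime hprime, hprime.ne_zero⟩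
      with hw
    have hwT : w ∉ T := fun hwT => hβw w hwT (hle (Ideal.mem_span_singleton_self β))
    exact hfixT w hwT
  have hmapI : Ideal.map σ' I = I := by
    have h1 : Ideal.map σ' I
        = ((UniqueFactorizationMonoid.normalizedFactors I).map (Ideal.mapHom σ')).prod := by
      rw [← map_multiset_prod (Ideal.mapHom σ'), Ideal.prod_normalizedFactors_eq_self hI0]
      rfl
    have h2 : (UniqueFactorizationMonoid.normalizedFactors I).map (Ideal.mapHom σ')
        = (UniqueFactorizationMonoid.normalizedFactors I).map id :=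
      Multiset.map_congr rfl fun P hP => hfix P hP
    rw [h1, h2, Multiset.map_id, Ideal.prod_normalizedFactors_eq_self hI0]
  -- `β ∣ δ`
  have hσβ : σ' β ∈ I := by
    have := Ideal.mem_map_of_mem σ' (Ideal.mem_span_singleton_self β)
    rwa [← hI, hmapI] at this
  have hdvd1 : β ∣ σ' β := Ideal.mem_span_singleton.1 hσβ
  have hδβ : σ' β - β = δ := by
    rw [hβ, hδ, map_add, map_mul, map_add, map_natCast, map_natCast, map_one]
    ring
  have hdvd : β ∣ δ := by
    rw [← hδβ]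
    exact dvd_sub hdvd1 (dvd_refl β)
  -- norms
  have hNdvd : Algebra.norm ℤ β ∣ Algebra.norm ℤ δ := map_dvd (Algebra.norm ℤ) hdvd
  have hle : |Algebra.norm ℤ β| ≤ |Algebra.norm ℤ δ| := by
    have h1 : (Algebra.norm ℤ β).natAbs ≤ (Algebra.norm ℤ δ).natAbs :=
      Nat.le_of_dvd (Int.natAbs_pos.2 hNδ0) (Int.natAbs_dvd_natAbs.2 hNdvd)
    rw [Int.abs_eq_natAbs, Int.abs_eq_natAbs]
    exact_mod_cast h1
  have hleR : |((Algebra.norm ℤ β : ℤ) : ℝ)| ≤ |((Algebra.norm ℤ δ : ℤ) : ℝ)| := by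
    have : ((|Algebra.norm ℤ β| : ℤ) : ℝ) ≤ ((|Algebra.norm ℤ δ| : ℤ) : ℝ) := by
      exact_mod_cast hle
    rwa [Int.cast_abs, Int.cast_abs] at this
  have hcoe : ((|Algebra.norm ℚ (β : K')| : ℚ) : ℝ) = |((Algebra.norm ℤ β : ℤ) : ℝ)| := by
    rw [← Algebra.coe_norm_int β, Rat.cast_abs]
    simp
  rw [hcoe] at hNβ
  linarith

end Fermat.Agent.LT.T7.H729

end
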