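import Fermat.Agent.LT.T7.H644.SetupSpec
import Fermat.Agent.LT.T7.H729.MovedPlaceCore

/-!
# Row LT, tower T7, leaf T7.L2.1.C0.a `MovedPlaceC644` (helper729), OFF-MAIN

`movedPlaceC729 : H644.MovedPlaceC644` VERBATIM (frozen Prop of
`Fermat/Agent/LT/T7/H644/SetupSpec.lean`, sha256 c04970e4, byte-identical copy); the proof is the
Mathlib-only core `movedPlace_core729` of `H729/MovedPlaceCore.lean` (norm estimate at the
infinite places; no Chebotarev).
-/

set_option autoImplicit false

namespace Fermat.Agent.LT.T7.H729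

/-- **LEAF T7.L2.1.C0.a `MovedPlaceC644`.** -/
theorem movedPlaceC729 : Fermat.Agent.LT.T7.H644.MovedPlaceC644 :=
  fun K' _ _ σ hσ T => movedPlace_core729 K' σ hσ T

end Fermat.Agent.LT.T7.H729
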